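import Mathlib
import Fermat.Agent.LT.T3.H893.NIntSpec
import Fermat.Agent.LT.H11.LC

/-!
# Row LT, tower T3, sub-leaf T3.18a.4.6 `N893.LocValFinC` (helper848)

OFF-MAIN.  Imports: Mathlib and byte-identical copies of `LT/T3/H893/NIntSpec.lean`
(sha256 1ddb5c45) with its closure, and of `LT/H11/LC.lean` (helper11, sha256 8ca09ef8, Mathlib
only: `𝒪_v` is compact).

* `x ↦ f₀ [[c₁, x + t], [0, c₂]]` is invariant under the translations by the open subgroup
  `c₁ 𝒪_v` (right invariance of `f₀` under `[[1, u], [0, 1]]`), hence locally constant;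
* its support lies in the union over the representatives `h` of the compact sets
  `h₀₀ 𝒪_v + h₀₁ 𝒪_v - t`;
* the integral: translation invariance of `ν₀`, `HasSatakeN`, `ordv` is additive on the units,
  `ordv α = n` from `(a₀) = 𝔭ⁿ`.
-/

set_option autoImplicit false
set_option linter.style.haveILetI false

open IsDedekindDomain NumberField MeasureTheory
open Fermat.Agent.LT.H556.A0

noncomputable section

namespace Fermat.Agent.LT.T3.H848

open Fermat.Agent.LT.T3 Fermat.Agent.LT.T3.AS Fermat.Agent.LT.T3.AS.N893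

variable {K : Type} [Field K] [NumberField K]

/-! ## The order -/

theorem ordv_mul848 (v : HeightOneSpectrum (𝓞 K)) {a b : v.adicCompletion K} (ha : a ≠ 0)
    (hb : b ≠ 0) : ordv v (a * b) = ordv v a + ordv v b := by
  unfold ordv
  rw [map_mul, WithZero.log_mul ((map_ne_zero _).mpr ha) ((map_ne_zero _).mpr hb)]
  ring

theorem ordv_zpow848 (v : HeightOneSpectrum (𝓞 K)) (a : v.adicCompletion K) (j : ℤ) :
    ordv v (a ^ j) = j * ordv v a := by
  unfold ordv
  rw [map_zpow₀, WithZero.log_zpow]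
  simp

/-- `ordv a₀ = n` when `(a₀) = 𝔭ⁿ`. -/
theorem ordv_of_span848 (v : HeightOneSpectrum (𝓞 K)) (a₀ : 𝓞 K) (n : ℕ)
    (h : Ideal.span {a₀} = v.asIdeal ^ n) :
    ordv v ((algebraMap (𝓞 K) K a₀ : K) : v.adicCompletion K) = n := by
  classical
  have ha : a₀ ≠ 0 := by
    intro h0
    rw [h0, Ideal.span_singleton_eq_bot.mpr rfl] at h
    exact pow_ne_zero n v.ne_bot h.symm
  unfold ordv
  rw [HeightOneSpectrum.valuedAdicCompletion_eq_valuation', HeightOneSpectrum.valuation_of_algebraMap,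
    HeightOneSpectrum.intValuation_if_neg v ha, WithZero.log_exp, neg_neg, h,
    Associates.mk_pow,
    Associates.count_pow (Associates.mk_ne_zero.mpr v.ne_bot) v.associates_irreducible,
    Associates.count_self v.associates_irreducible, mul_one]

/-- The order of the component at `v₀` of `c₁ αʲ`. -/
theorem ordA_mul_zpow848 {𝔫 : Ideal (𝓞 K)} {v₀ : HeightOneSpectrum (𝓞 K)} {a₀ : 𝓞 K} {n : ℕ}
    {α : Kˣ} (hF : Frame K 𝔫 v₀ a₀ n α) (c₁ : (Adl K)ˣ) (j : ℤ) :
    ordv v₀ ((finU K v₀ (c₁ * T1.ratUnit K α ^ j) : (v₀.adicCompletion K)ˣ) :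
      v₀.adicCompletion K) = ordA K v₀ c₁ + j * n := by
  rw [map_mul, map_zpow, Units.val_mul, Units.val_zpow_eq_zpow_val,
    ordv_mul848 v₀ (Units.ne_zero _) (zpow_ne_zero _ (Units.ne_zero _)), ordv_zpow848]
  have h1 : ((finU K v₀ (T1.ratUnit K α) : (v₀.adicCompletion K)ˣ) : v₀.adicCompletion K)
      = ((algebraMap (𝓞 K) K a₀ : K) : v₀.adicCompletion K) := by
    rw [← hF.coe]
    rfl
  rw [h1, ordv_of_span848 v₀ a₀ n hF.span]
  rfl

/-! ## The powers of `q` -/

theorem rpow_split848 {q : ℝ} (hq : 0 < q) (o₁ o₂ j : ℤ) (n : ℕ) :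
    q ^ (-(((o₁ + j * n + o₂ : ℤ) : ℝ)) / 2)
      = q ^ (-(((o₁ + o₂ : ℤ) : ℝ)) / 2) * (q ^ (-(n : ℝ) / 2)) ^ j := by
  rw [← Real.rpow_intCast, ← Real.rpow_mul hq.le, ← Real.rpow_add hq]
  congr 1
  push_cast
  ring

/-! ## The unipotent translations -/

variable (v : HeightOneSpectrum (𝓞 K))

/-- `[[1, u], [0, 1]] ∈ GL₂(𝒪_v)` for `u ∈ 𝒪_v`. -/
theorem isIntGL_unip848 {u : v.adicCompletion K} (hu : u ∈ v.adicCompletionIntegers K) :
    IsIntGL v (upperGL (1 : (v.adicCompletion K)ˣ) 1 u) := by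
  have h0 : (0 : v.adicCompletion K) ∈ v.adicCompletionIntegers K := zero_mem _
  have h1 : (1 : v.adicCompletion K) ∈ v.adicCompletionIntegers K := one_mem _
  have hn : -u ∈ v.adicCompletionIntegers K := neg_mem hu
  intro i j
  constructor
  · rw [upperGL_coe]
    fin_cases i <;> fin_cases j <;> simp [h0, h1, hu]
  · have : ((upperGL (1 : (v.adicCompletion K)ˣ) 1 u)⁻¹ : GL (Fin 2) (v.adicCompletion K))
        = upperGL 1 1 (-u) := by
      rw [inv_eq_iff_mul_eq_one]
      apply Units.ext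
      rw [Units.val_mul, upperGL_coe, upperGL_coe]
      ext a b
      fin_cases a <;> fin_cases b <;> simp [Matrix.mul_apply, Fin.sum_univ_two]
    rw [this, upperGL_coe]
    fin_cases i <;> fin_cases j <;> simp [h0, h1, hn]

theorem isIntGL_one848 : IsIntGL v (1 : GL (Fin 2) (v.adicCompletion K)) := by
  have h := isIntGL_unip848 v (zero_mem (v.adicCompletionIntegers K))
  have : upperGL (1 : (v.adicCompletion K)ˣ) 1 (0 : v.adicCompletion K) = 1 := by
    apply Units.ext
    rw [upperGL_coe]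
    ext a b
    fin_cases a <;> fin_cases b <;> simp
  rwa [this] at h

/-- `[[c₁, X + c₁ u], [0, c₂]] = [[c₁, X], [0, c₂]] [[1, u], [0, 1]]`. -/
theorem upperGL_add848 (c₁ c₂ : (v.adicCompletion K)ˣ) (X u : v.adicCompletion K) :
    upperGL c₁ c₂ (X + (c₁ : v.adicCompletion K) * u) = upperGL c₁ c₂ X * upperGL 1 1 u := by
  apply Units.ext
  rw [Units.val_mul, upperGL_coe, upperGL_coe, upperGL_coe]
  ext a b
  fin_cases a <;> fin_cases b <;> simp [Matrix.mul_apply, Fin.sum_univ_two, add_comm]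

/-- Invariance under the translations by `c₁ 𝒪_v`. -/
theorem f_transl848 {f₀ : GL (Fin 2) (v.adicCompletion K) → ℂ} (hbi : IsBiIntInv v f₀)
    (c₁ c₂ : (v.adicCompletion K)ˣ) (X y : v.adicCompletion K)
    (hy : ((c₁⁻¹ : (v.adicCompletion K)ˣ) : v.adicCompletion K) * y
      ∈ v.adicCompletionIntegers K) :
    f₀ (upperGL c₁ c₂ (X + y)) = f₀ (upperGL c₁ c₂ X) := by
  have hy' : y = (c₁ : v.adicCompletion K)
      * (((c₁⁻¹ : (v.adicCompletion K)ˣ) : v.adicCompletion K) * y) := by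
    rw [← mul_assoc, Units.mul_inv, one_mul]
  rw [hy', upperGL_add848]
  have h := hbi 1 (upperGL 1 1 (((c₁⁻¹ : (v.adicCompletion K)ˣ) : v.adicCompletion K) * y))
    (upperGL c₁ c₂ X) (isIntGL_one848 v) (isIntGL_unip848 v hy)
  rwa [one_mul] at h

/-- The function is continuous (locally constant). -/
theorem continuous_f848 {f₀ : GL (Fin 2) (v.adicCompletion K) → ℂ} (hbi : IsBiIntInv v f₀)
    (c₁ c₂ : (v.adicCompletion K)ˣ) (t : v.adicCompletion K) :
    Continuous fun x : v.adicCompletion K => f₀ (upperGL c₁ c₂ (x + t)) := by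
  apply IsLocallyConstant.continuous
  rw [IsLocallyConstant.iff_exists_open]
  intro x
  refine ⟨{x' | ((c₁⁻¹ : (v.adicCompletion K)ˣ) : v.adicCompletion K) * (x' - x)
      ∈ (v.adicCompletionIntegers K : Set (v.adicCompletion K))}, ?_, ?_, ?_⟩
  · have hc : Continuous fun x' : v.adicCompletion K =>
        ((c₁⁻¹ : (v.adicCompletion K)ˣ) : v.adicCompletion K) * (x' - x) :=
      continuous_const.mul (continuous_id.sub continuous_const)
    exact (Valued.isOpen_valuationSubring (v.adicCompletion K)).preimage hc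
  · show ((c₁⁻¹ : (v.adicCompletion K)ˣ) : v.adicCompletion K) * (x - x)
      ∈ (v.adicCompletionIntegers K : Set (v.adicCompletion K))
    rw [sub_self, mul_zero]
    exact zero_mem (v.adicCompletionIntegers K)
  · intro x' hx'
    have h := f_transl848 v hbi c₁ c₂ (x + t) (x' - x) hx'
    have e : x + t + (x' - x) = x' + t := by ring
    rwa [e] at h

/-- The function has compact support. -/
theorem hasCompactSupport_f848 {f₀ : GL (Fin 2) (v.adicCompletion K) → ℂ}
    {R : Finset (GL (Fin 2) (v.adicCompletion K))} (hR : IsRepSys v f₀ R)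
    (c₁ c₂ : (v.adicCompletion K)ˣ) (t : v.adicCompletion K) :
    HasCompactSupport fun x : v.adicCompletion K => f₀ (upperGL c₁ c₂ (x + t)) := by
  classical
  have hO : IsCompact (v.adicCompletionIntegers K : Set (v.adicCompletion K)) :=
    Fermat.Agent.LT.H11.LC.isCompact_integers_h11 K v
  let Kh : GL (Fin 2) (v.adicCompletion K) → Set (v.adicCompletion K) := fun h =>
    (fun p : v.adicCompletion K × v.adicCompletion K =>
      (h : Matrix (Fin 2) (Fin 2) (v.adicCompletion K)) 0 0 * p.1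
        + (h : Matrix (Fin 2) (Fin 2) (v.adicCompletion K)) 0 1 * p.2 - t) ''
      ((v.adicCompletionIntegers K : Set (v.adicCompletion K)) ×ˢ
        (v.adicCompletionIntegers K : Set (v.adicCompletion K)))
  have hKh : ∀ h, IsCompact (Kh h) := by
    intro h
    refine (hO.prod hO).image ?_
    exact (((continuous_const.mul continuous_fst).add (continuous_const.mul continuous_snd)).sub
      continuous_const)
  have hU : IsCompact (⋃ h ∈ R, Kh h) := R.isCompact_biUnion fun h _ => hKh h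
  refine HasCompactSupport.intro hU ?_
  intro x hx
  by_contra hne
  apply hx
  obtain ⟨h, hhR, hint⟩ := hR.2 _ hne
  refine Set.mem_biUnion hhR ?_
  set g := upperGL c₁ c₂ (x + t) with hg
  set κ := h⁻¹ * g with hκ
  have hgk : g = h * κ := by rw [hκ, mul_inv_cancel_left]
  have h01 : (g : Matrix (Fin 2) (Fin 2) (v.adicCompletion K)) 0 1
      = (h : Matrix (Fin 2) (Fin 2) (v.adicCompletion K)) 0 0
          * (κ : Matrix (Fin 2) (Fin 2) (v.adicCompletion K)) 0 1
        + (h : Matrix (Fin 2) (Fin 2) (v.adicCompletion K)) 0 1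
          * (κ : Matrix (Fin 2) (Fin 2) (v.adicCompletion K)) 1 1 := by
    rw [hgk, Units.val_mul, Matrix.mul_apply, Fin.sum_univ_two]
  have hx01 : (g : Matrix (Fin 2) (Fin 2) (v.adicCompletion K)) 0 1 = x + t := by
    rw [hg, upperGL_coe]
    simp
  refine ⟨((κ : Matrix (Fin 2) (Fin 2) (v.adicCompletion K)) 0 1,
    (κ : Matrix (Fin 2) (Fin 2) (v.adicCompletion K)) 1 1), ⟨(hint 0 1).1, (hint 1 1).1⟩, ?_⟩
  show (h : Matrix (Fin 2) (Fin 2) (v.adicCompletion K)) 0 0
      * (κ : Matrix (Fin 2) (Fin 2) (v.adicCompletion K)) 0 1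
    + (h : Matrix (Fin 2) (Fin 2) (v.adicCompletion K)) 0 1
      * (κ : Matrix (Fin 2) (Fin 2) (v.adicCompletion K)) 1 1 - t = x
  rw [← h01, hx01]
  ring

/-! ## The leaf -/

/-- **T3.18a.4.6** -/
theorem locValFinC848 : LocValFinC K := by
  intro 𝔫 v₀ a₀ n α hF ν₀ hν₀ f₀ A hbi hRex hSat c₁ c₂ j t
  obtain ⟨R, hR⟩ := hRex
  refine ⟨continuous_f848 v₀ hbi _ _ t, hasCompactSupport_f848 v₀ hR _ _ t, ?_⟩
  letI : MeasurableSpace (v₀.adicCompletion K) := borel (v₀.adicCompletion K)
  haveI : BorelSpace (v₀.adicCompletion K) := ⟨rfl⟩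
  haveI : ν₀.IsAddHaarMeasure := hν₀
  have hq : (0 : ℝ) < (Ideal.absNorm v₀.asIdeal : ℝ) := by
    have : Ideal.absNorm v₀.asIdeal ≠ 0 := fun h => v₀.ne_bot (Ideal.absNorm_eq_zero_iff.mp h)
    exact_mod_cast Nat.pos_of_ne_zero this
  have h1 := integral_add_right_eq_self (μ := ν₀)
    (fun x : v₀.adicCompletion K =>
      f₀ (upperGL (finU K v₀ (c₁ * T1.ratUnit K α ^ j)) (finU K v₀ c₂) x)) t
  have h2 := hSat ν₀ hν₀ (finU K v₀ (c₁ * T1.ratUnit K α ^ j)) (finU K v₀ c₂)
  rw [ordA_mul_zpow848 hF c₁ j] at h2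
  have h3 : ordv v₀ ((finU K v₀ c₂ : (v₀.adicCompletion K)ˣ) : v₀.adicCompletion K)
      = ordA K v₀ c₂ := rfl
  rw [h3] at h2
  rw [h1, h2, rpow_split848 hq]
  push_cast
  ring

example : LocValFinC K := locValFinC848

end Fermat.Agent.LT.T3.H848

end
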